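import Fermat.Agent.SS.New.Defs
import Fermat.Agent.S49
import Fermat.Agent.ES.D.Eigen

/-!
# SS/New/Eigenform : a common eigenvector of all `T_ℓ`, `U_q` is a multiple of a normalised eigenform

(N3)  Let `f ≠ 0` in `S₂(Γ₀(M))` with `t f = χ(t) f` for all `t` in the full Hecke algebra
`heckeAlgebra M 2 ∅` (generated by `heckeTLin 2 hℓ hℓM`, `ℓ ∤ M`, and `heckeULin 2 hqM`, `q ∣ M`).
Then `a_1(f) ≠ 0` and `g := a_1(f)⁻¹ • f` is `IsNormalizedEigenform`, with `a_ℓ(g) = χ(T_ℓ)`.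

PROOF.  Write `a n = qCoeff f n`, `λ_p = χ(T_p)` resp. `χ(U_p)`.  From
`S49.qCoeff_heckeTLin` (and the analogue for `heckeULin`: Prelude
`ModularFormClass.qCoeff_heckeU`, `ModularForm.coeffHeckeU_apply`; see how `S49.qCoeff_heckeTLin` is
derived from `ModularFormClass.qCoeff_heckeT`), `S49.qCoeff_smul`:
  (T) `a (n * p) + (if p ∣ n then p * a (n / p) else 0) = λ_p * a n`   (`p ∤ M`),
  (U) `a (n * p) = λ_p * a n`                                           (`p ∣ M`).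
So `a (n * p)` is determined by `a n`, `a (n / p)`: if `a 1 = 0` then `a n = 0` for all `n ≥ 1` by
strong induction (`n = n' * p`, `p = minFac n`), `a 0 = 0` (`S49.qCoeff_index_zero`), so `f = 0`
(`S49.eq_zero_of_qCoeff`).  After normalisation `a 1 = 1`: `a p = λ_p`;
`qCoeff_prime_pow_of_not_dvd`, `qCoeff_prime_pow_of_dvd` are (T), (U) with `n = p ^ (r + 1)`;
multiplicativity `a (m * n) = a m * a n` (`m`, `n` coprime): first `a (p ^ r * n) = a (p ^ r) * a n`
for `p ∤ n` by induction on `r` (two-step, from (T)/(U) applied to `p ^ r * n` and to `p ^ r`), then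
induction on `m` (`Nat.recOnPosPrimePosCoprime` or `Nat.recOnPrimeCoprime`); the cases `m = 0` or
`n = 0` (`Nat.Coprime 0 n ↔ n = 1`) are trivial.
-/

set_option autoImplicit false

namespace Fermat.Agent.SS

open Fermat.Agent.ES CuspForm ModularFormClass

theorem exists_isNormalizedEigenform_of_eigenvector (M : ℕ) [NeZero M]
    (χ : heckeAlgebra M 2 (∅ : Set ℕ) →+* ℂ)
    (f : CuspForm (CongruenceSubgroup.Gamma0 M) 2) (hf : f ≠ 0)
    (h : ∀ t : heckeAlgebra M 2 (∅ : Set ℕ),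
      (t : Module.End ℂ (CuspForm (CongruenceSubgroup.Gamma0 M) 2)) f = χ t • f) :
    ∃ g : CuspForm (CongruenceSubgroup.Gamma0 M) 2, g.IsNormalizedEigenform ∧
      ∀ (ℓ : ℕ) (hℓ : ℓ.Prime) (hℓM : ¬ ℓ ∣ M),
        qCoeff g ℓ = χ (heckeAlgebra.T hℓ hℓM (Set.notMem_empty ℓ)) := by
  classical
  set b : ℕ → ℂ := fun n => qCoeff f n with hb
  let e' : ℕ → ℂ := fun ℓ => if ℓ ∣ M then 0 else (ℓ : ℂ)
  -- the eigenvalue at `ℓ`
  let lam : ℕ → ℂ := fun ℓ =>
    if hℓ : ℓ.Prime then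
      (if hℓM : ℓ ∣ M then χ (heckeAlgebra.U hℓ hℓM (Set.notMem_empty ℓ))
       else χ (heckeAlgebra.T hℓ hℓM (Set.notMem_empty ℓ)))
    else 0
  have hrel : ∀ ℓ : ℕ, ℓ.Prime →
      ∀ n : ℕ, b (ℓ * n) + e' ℓ * (if ℓ ∣ n then b (n / ℓ) else 0) = lam ℓ * b n := by
    intro ℓ hℓ n
    by_cases hℓM : ℓ ∣ M
    · have h1 := h (heckeAlgebra.U hℓ hℓM (Set.notMem_empty ℓ))
      rw [heckeAlgebra.coe_U] at h1
      have h2 := S49.qCoeff_heckeULin hℓ hℓM f n
      rw [h1, S49.qCoeff_smul] at h2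
      simp only [e', lam, dif_pos hℓ, dif_pos hℓM, if_pos hℓM, zero_mul, add_zero, hb]
      rw [h2, mul_comm]
    · have h1 := h (heckeAlgebra.T hℓ hℓM (Set.notMem_empty ℓ))
      rw [heckeAlgebra.coe_T] at h1
      have h2 := S49.qCoeff_heckeTLin hℓ hℓM f n
      rw [h1, S49.qCoeff_smul] at h2
      simp only [e', lam, dif_pos hℓ, dif_neg hℓM, if_neg hℓM, hb]
      rw [h2, mul_comm n ℓ]
      split_ifs <;> simp
  have hb0 : b 0 = 0 := S49.qCoeff_index_zero f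
  have hb1 : b 1 ≠ 0 := by
    intro hb1
    apply hf
    apply S49.eq_zero_of_qCoeff
    exact S49.eq_zero_of_relations (e := e') hb0 hb1 fun ℓ hℓ => ⟨lam ℓ, hrel ℓ hℓ⟩
  -- the normalised eigenform
  let g : CuspForm (CongruenceSubgroup.Gamma0 M) 2 := (b 1)⁻¹ • f
  have hg : ∀ n, qCoeff g n = (b 1)⁻¹ * b n := fun n => S49.qCoeff_smul _ f n
  have hcℓ : ∀ ℓ : ℕ, ℓ.Prime → lam ℓ = qCoeff g ℓ := by
    intro ℓ hℓ
    have h1 := hrel ℓ hℓ 1
    have h2 : ¬ ℓ ∣ 1 := fun hd => hℓ.one_lt.ne' (Nat.dvd_one.1 hd)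
    rw [if_neg h2, mul_zero, add_zero, mul_one] at h1
    rw [hg, h1]
    field_simp
  have hsys : FormalHecke.IsEigensystem e' (fun n => qCoeff g n) := by
    refine ⟨?_, fun ℓ hℓ n => ?_⟩
    · change qCoeff g 1 = 1
      rw [hg]
      exact inv_mul_cancel₀ hb1
    · have h1 := hcℓ ℓ hℓ
      change qCoeff g (ℓ * n) + e' ℓ * (if ℓ ∣ n then qCoeff g (n / ℓ) else 0) =
        qCoeff g ℓ * qCoeff g n
      rw [← h1, hg, hg, hg]
      have h2 := hrel ℓ hℓ n
      split_ifs at h2 ⊢ <;> linear_combination (b 1)⁻¹ * h2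
  have hgeig : g.IsNormalizedEigenform :=
    { qCoeff_one := hsys.1
      qCoeff_mul_of_coprime := S49.mul_of_isEigensystem hsys
      qCoeff_prime_pow_of_not_dvd := by
        intro p r hp hpN
        have := S49.rec_of_isEigensystem hsys p r hp
        simpa only [e', if_neg hpN] using this
      qCoeff_prime_pow_of_dvd := by
        intro p r hp hpN
        have := S49.rec_of_isEigensystem hsys p r hp
        simpa only [e', if_pos hpN, zero_mul, sub_zero] using this }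
  refine ⟨g, hgeig, fun ℓ hℓ hℓM => ?_⟩
  rw [← hcℓ ℓ hℓ]
  simp only [lam, dif_pos hℓ, dif_neg hℓM]

end Fermat.Agent.SS
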