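import Fermat.Agent.SS.New.Defs

/-!
# SS/New/RingHom : a system of numbers satisfying all relations of the `T_ℓ` is a character

(N5)  If all prime divisors of `M` are in `S`, `heckeAlgebra M 2 ↑S` is generated by the `T_ℓ`,
`ℓ ∉ S` (no `U_q`), i.e. it is the range of
`Φ := FreeAlgebra.lift ℤ (fun ℓ : GP S => D.heckeS2 M (ℓ.good hMS))` (`Algebra.adjoin` of the range
of the generators: `FreeAlgebra.adjoin_range_ι`/`AlgHom.map_adjoin`, `AlgHom.range`).  If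
`Ψ := FreeAlgebra.lift ℤ a` kills `ker Φ`, it factors through the range: e.g.
`χ t := Ψ (Classical.choose (ht : ∃ P, Φ P = t))`, well defined and a ring hom because
`Φ P = Φ P' → Ψ P = Ψ P'` (apply the hypothesis to `P - P'`).
-/

set_option autoImplicit false

namespace Fermat.Agent.SS

open Fermat.Agent.ES CuspForm

/-- every value of `Φ` lies in the Hecke algebra. -/
theorem RingHomAux.lift_mem (M : ℕ) [NeZero M] (S : Finset ℕ)
    (hMS : ∀ q : ℕ, q.Prime → q ∣ M → q ∈ S) (P : FreeAlgebra ℤ (GP S)) :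
    FreeAlgebra.lift ℤ (fun ℓ : GP S => D.heckeS2 M (ℓ.good hMS)) P ∈
      heckeAlgebra M 2 (↑S : Set ℕ) := by
  induction P using FreeAlgebra.induction with
  | grade0 r => rw [AlgHom.commutes]; exact Subalgebra.algebraMap_mem _ r
  | grade1 ℓ =>
    rw [FreeAlgebra.lift_ι_apply]
    exact heckeTLin_mem_heckeAlgebra ℓ.2.1 (ℓ.good hMS).2.2 ℓ.notMem_coe
  | mul a b ha hb => rw [map_mul]; exact Subalgebra.mul_mem _ ha hb
  | add a b ha hb => rw [map_add]; exact Subalgebra.add_mem _ ha hb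

/-- every element of the Hecke algebra is a value of `Φ`. -/
theorem RingHomAux.exists_lift_eq (M : ℕ) [NeZero M] (S : Finset ℕ)
    (hMS : ∀ q : ℕ, q.Prime → q ∣ M → q ∈ S)
    (t : Module.End ℂ (CuspForm (CongruenceSubgroup.Gamma0 M) 2))
    (ht : t ∈ heckeAlgebra M 2 (↑S : Set ℕ)) :
    ∃ P : FreeAlgebra ℤ (GP S),
      FreeAlgebra.lift ℤ (fun ℓ : GP S => D.heckeS2 M (ℓ.good hMS)) P = t := by
  have hle : heckeAlgebra M 2 (↑S : Set ℕ) ≤
      (FreeAlgebra.lift ℤ (fun ℓ : GP S => D.heckeS2 M (ℓ.good hMS))).range := by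
    refine Algebra.adjoin_le ?_
    rintro T (⟨ℓ, hℓ, hℓN, hℓS, rfl⟩ | ⟨q, hqN, hq, hqS, rfl⟩)
    · refine ⟨FreeAlgebra.ι ℤ (⟨ℓ, hℓ, by simpa using hℓS⟩ : GP S), ?_⟩
      simp only [AlgHom.toRingHom_eq_coe, RingHom.coe_coe, FreeAlgebra.lift_ι_apply]
      rfl
    · exact absurd (by simpa using hMS q hq hqN) hqS
  obtain ⟨P, hP⟩ := hle ht
  exact ⟨P, hP⟩

theorem exists_ringHom_of_relations (M : ℕ) [NeZero M] (S : Finset ℕ)
    (hMS : ∀ q : ℕ, q.Prime → q ∣ M → q ∈ S) (a : GP S → ℂ)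
    (h : ∀ P : FreeAlgebra ℤ (GP S),
      FreeAlgebra.lift ℤ (fun ℓ : GP S => D.heckeS2 M (ℓ.good hMS)) P = 0 →
        FreeAlgebra.lift ℤ a P = 0) :
    ∃ χ : heckeAlgebra M 2 (↑S : Set ℕ) →+* ℂ, ∀ ℓ : GP S,
      χ (heckeAlgebra.T ℓ.2.1 (ℓ.good hMS).2.2 ℓ.notMem_coe) = a ℓ := by
  classical
  set Φ := FreeAlgebra.lift ℤ (fun ℓ : GP S => D.heckeS2 M (ℓ.good hMS)) with hΦ
  set Ψ := FreeAlgebra.lift ℤ a with hΨ
  have hwd : ∀ P P' : FreeAlgebra ℤ (GP S), Φ P = Φ P' → Ψ P = Ψ P' := by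
    intro P P' hPP
    have := h (P - P') (by rw [map_sub, hPP, sub_self])
    rw [map_sub, sub_eq_zero] at this
    exact this
  have hex : ∀ t : heckeAlgebra M 2 (↑S : Set ℕ), ∃ P, Φ P = (t : Module.End ℂ _) :=
    fun t => RingHomAux.exists_lift_eq M S hMS t.1 t.2
  choose sec hsec using hex
  refine ⟨{ toFun := fun t => Ψ (sec t)
            map_one' := ?_
            map_mul' := ?_
            map_zero' := ?_
            map_add' := ?_ }, ?_⟩
  · rw [← map_one Ψ]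
    exact hwd _ _ (by rw [hsec, map_one]; rfl)
  · intro x y
    rw [← map_mul Ψ]
    exact hwd _ _ (by rw [hsec, map_mul, hsec, hsec]; rfl)
  · rw [← map_zero Ψ]
    exact hwd _ _ (by rw [hsec, map_zero]; rfl)
  · intro x y
    rw [← map_add Ψ]
    exact hwd _ _ (by rw [hsec, map_add, hsec, hsec]; rfl)
  · intro ℓ
    show Ψ (sec _) = a ℓ
    have h1 : Ψ (FreeAlgebra.ι ℤ ℓ) = a ℓ := by rw [hΨ, FreeAlgebra.lift_ι_apply]
    rw [← h1]
    refine hwd _ _ ?_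
    rw [hsec, hΦ, FreeAlgebra.lift_ι_apply]
    rfl

end Fermat.Agent.SS
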