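import Fermat.Agent.SS.New.Defs
import Fermat.Agent.ES.Glue.Supp
import Fermat.Agent.ES.D.Eigen
import Fermat.Agent.Lib.FrobDensity.ForES
import Fermat.Agent.S31.Dickson
import Fermat.Agent.S31.Cyclo
import Fermat.Agent.S54.Frobenius
import Fermat.Agent.S31.Core

/-!
# SS/New/SMO : strong multiplicity one away from the levels (from the Eichler-Shimura relation)

(N4)  Two normalised eigenforms `g`, `g'` of levels `N`, `N'` with `a_ℓ(g) = a_ℓ(g')` for all primes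
`ℓ` outside a finite set `S` have `a_ℓ(g) = a_ℓ(g')` for ALL primes `ℓ ∤ N N'`.

PROOF.  Fix `ℓ₀ ∤ N N'`, a prime `p ≠ ℓ₀` and `n`.  Put `m = p ^ n`,
`E = ES.Glue.esModuleOfCrux` for `(N, m)` and `E'` for `(N', m)` (`V = Kum N m`, finite; `smooth`).
Let `φ₀` be a Frobenius element at some `A₀ ∣ ℓ₀` (`S54.exists_frob`).  Let `L` be a number field such
that every `σ` fixing `L` acts trivially on `E.V`, `E'.V` (finite + `smooth`; cf.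
`S31.finiteLevel_of_smooth`) and fixes a primitive `m`-th root of unity `ζ`.
`FD.frobPowerDensity L _ φ₀ (S ∪ {p, ℓ₀} ∪ N.primeFactors ∪ N'.primeFactors)` gives a prime `ℓ`, a
Frobenius `φ` at `A ∣ ℓ` and `j` with `φ₀ = φ ^ j` on `L`.  On `ζ`: `ζ ^ ℓ₀ = ζ ^ (ℓ ^ j)`
(`S31.frob_apply_root`, `S31.frob_pow_apply_root`), so `ℓ₀ ≡ ℓ ^ j mod m`
(`S31.modEq_of_pow_eq` in `S31/Core.lean`).  On `V` (both levels): `u = ρ φ`, `v = T_ℓ - u`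
commute, `u v = ℓ` (Eichler-Shimura), so `D_j(T_ℓ; ℓ) = u^j + v^j = ρ φ₀ + ℓ^j (ρ φ₀)⁻¹`
(`S31.aeval_dickson_add`; the computation is in the proof of `S31.approx`), and
`T_{ℓ₀} = ρ φ₀ + ℓ₀ (ρ φ₀)⁻¹`.  As `m V = 0`: `T_{ℓ₀} = D_j(T_ℓ; ℓ)` on `V`.  By `E.supp` applied to
`P = ι ℓ₀ - aeval (ι ℓ) (dickson 1 ℓ j)` and `D.lift_heckeS2_apply`, `D.isIntegral_of_eigen` (as in the
proof of `D.supp_eigen`): `a_{ℓ₀}(g) - D_j(a_ℓ(g); ℓ) = m z` with `z` integral over `ℤ`; the same for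
`g'`; subtract (`a_ℓ(g) = a_ℓ(g')`): `δ := a_{ℓ₀}(g) - a_{ℓ₀}(g') ∈ p ^ n • (integral closure)` for all
`n`, so `δ = 0` (`eq_zero_of_forall_pow_dvd`).
-/

set_option autoImplicit false

namespace Fermat.Agent.SS

open Fermat.Agent.ES CuspForm ModularFormClass

/-- An algebraic integer divisible by all powers of a prime is zero. -/
theorem eq_zero_of_forall_pow_dvd {p : ℕ} (hp : p.Prime) (x : ℂ)
    (h : ∀ n : ℕ, ∃ z : ℂ, IsIntegral ℤ z ∧ x = (p : ℂ) ^ n * z) : x = 0 := by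
  by_contra hx
  have hxi : IsIntegral ℤ x := by
    obtain ⟨z, hz, hxz⟩ := h 0
    simpa [hxz] using hz
  have h0 : (minpoly ℤ x).coeff 0 ≠ 0 := by
    have hq : (minpoly ℚ x).coeff 0 ≠ 0 := minpoly.coeff_zero_ne_zero hxi.tower_top hx
    rw [minpoly.isIntegrallyClosed_eq_field_fractions' ℚ hxi, Polynomial.coeff_map] at hq
    intro h00
    rw [h00] at hq
    simp at hq
  have hf : Polynomial.aeval x (minpoly ℤ x) = 0 := minpoly.aeval ℤ x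
  have hw : IsIntegral ℤ (Polynomial.aeval x (Polynomial.divX (minpoly ℤ x))) := by
    have : Polynomial.aeval x (Polynomial.divX (minpoly ℤ x)) ∈ Algebra.adjoin ℤ {x} :=
      Polynomial.aeval_mem_adjoin_singleton _ _
    exact IsIntegral.of_mem_of_fg _ (hxi.fg_adjoin_singleton) _ this
  have hrel : (((minpoly ℤ x).coeff 0 : ℤ) : ℂ)
      = - (Polynomial.aeval x (Polynomial.divX (minpoly ℤ x)) * x) := by
    have h1 := congrArg (Polynomial.aeval x) (Polynomial.divX_mul_X_add (minpoly ℤ x))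
    rw [hf] at h1
    simp only [map_add, map_mul, Polynomial.aeval_X, Polynomial.aeval_C] at h1
    have h2 : (algebraMap ℤ ℂ) ((minpoly ℤ x).coeff 0) = (((minpoly ℤ x).coeff 0 : ℤ) : ℂ) := rfl
    rw [h2] at h1
    linear_combination h1
  generalize (minpoly ℤ x).coeff 0 = a at h0 hrel
  generalize Polynomial.aeval x (Polynomial.divX (minpoly ℤ x)) = w at hw hrel
  have hp0 : (p : ℂ) ≠ 0 := by exact_mod_cast hp.ne_zero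
  have key : ∀ n : ℕ, (p : ℤ) ^ n ∣ a := by
    intro n
    obtain ⟨z, hz, hxz⟩ := h n
    have hi : IsIntegral ℤ (-(w * z)) := (hw.mul hz).neg
    have he : -(w * z) = algebraMap ℚ ℂ ((a : ℚ) / (p : ℚ) ^ n) := by
      have : algebraMap ℚ ℂ ((a : ℚ) / (p : ℚ) ^ n) = (a : ℂ) / (p : ℂ) ^ n := by
        simp
      rw [this, hrel, hxz]
      field_simp
    rw [he, isIntegral_algebraMap_iff (algebraMap ℚ ℂ).injective,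
      IsIntegrallyClosed.isIntegral_iff] at hi
    obtain ⟨y, hy⟩ := hi
    refine ⟨y, ?_⟩
    have hpq : ((p : ℚ) ^ n) ≠ 0 := pow_ne_zero _ (by exact_mod_cast hp.ne_zero)
    have h3 : (a : ℚ) = (p : ℚ) ^ n * (y : ℚ) := by
      have : (y : ℚ) = (a : ℚ) / (p : ℚ) ^ n := hy
      rw [this]; field_simp
    exact_mod_cast h3
  have h4 := key a.natAbs
  have h5 : p ^ a.natAbs ∣ a.natAbs := by
    have := Int.natAbs_dvd_natAbs.mpr h4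
    simpa [Int.natAbs_pow] using this
  have h6 := Nat.le_of_dvd (Int.natAbs_pos.mpr h0) h5
  have h7 := Nat.lt_pow_self hp.one_lt (n := a.natAbs)
  omega

namespace SMO

open Polynomial

theorem natCast_modEnd_eq_of_modEq {M : Type*} [AddCommGroup M] {m a b : ℕ}
    (hkill : ∀ x : M, m • x = 0) (hab : a ≡ b [MOD m]) :
    ((a : ℕ) : Module.End ℤ M) = ((b : ℕ) : Module.End ℤ M) := by
  have key : ∀ (c : ℕ) (x : M), c • x = (c % m) • x := by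
    intro c x
    conv_lhs => rw [← Nat.div_add_mod c m, add_smul, mul_smul, hkill, zero_add]
  ext x
  rw [Module.End.natCast_apply, Module.End.natCast_apply, key a, key b, hab]

variable {N m : ℕ} [NeZero N]

/-- Eichler-Shimura: `D_j(T_ℓ; ℓ) = ρ(φ^j) + ℓ^j ρ(φ^j)⁻¹`. -/
theorem aeval_T_dickson (E : D.ESModule N m) (ℓ : D.GoodPrime N) (hℓm : ¬ ℓ.1 ∣ m)
    (A : ValuationSubring Qb) (hA : A.LiesOverPrime ℓ.1) (φ : GQ) (hφ : A.IsFrobeniusAt φ ℓ.1)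
    (j : ℕ) :
    aeval (E.T ℓ) (dickson 1 ((ℓ.1 : ℕ) : ℤ) j)
      = E.ρ (φ ^ j) + ((ℓ.1 ^ j : ℕ) : Module.End ℤ E.V) * E.ρ (φ ^ j)⁻¹ := by
  set u₀ : Module.End ℤ E.V := E.ρ φ with hu₀
  set w₀ : Module.End ℤ E.V := E.ρ φ⁻¹ with hw₀
  have huw : u₀ * w₀ = 1 := by rw [hu₀, hw₀, ← map_mul, mul_inv_cancel, map_one]
  set v₀ : Module.End ℤ E.V := E.T ℓ - u₀ with hv₀
  have hvu : v₀ * u₀ = ((ℓ.1 : ℕ) : Module.End ℤ E.V) := by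
    ext x
    have := E.eichlerShimura ℓ hℓm A hA φ hφ x
    rw [Module.End.natCast_apply]
    show E.T ℓ (E.ρ φ x) - E.ρ φ (E.ρ φ x) = ℓ.1 • x
    have h0 : ℓ.1 • x - (E.T ℓ (E.ρ φ x) - E.ρ φ (E.ρ φ x)) =
        E.ρ φ (E.ρ φ x) - E.T ℓ (E.ρ φ x) + ℓ.1 • x := by abel
    exact (sub_eq_zero.mp (h0.trans this)).symm
  have hv : v₀ = ((ℓ.1 : ℕ) : Module.End ℤ E.V) * w₀ := by
    rw [← hvu, mul_assoc, huw, mul_one]
  have huv : u₀ * v₀ = ((ℓ.1 : ℕ) : Module.End ℤ E.V) := by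
    rw [hv, ← mul_assoc, (Nat.cast_commute ℓ.1 u₀).eq.symm, mul_assoc, huw, mul_one]
  have hcomm : Commute u₀ v₀ := by rw [Commute, SemiconjBy, huv, hvu]
  have h3 := S31.aeval_dickson_add u₀ v₀ hcomm ((ℓ.1 : ℕ) : ℤ) (by rw [huv]; simp) j
  have h4 : u₀ + v₀ = E.T ℓ := by rw [hv₀]; abel
  rw [h4] at h3
  rw [h3, hv, (Nat.cast_commute ℓ.1 w₀).mul_pow, hu₀, hw₀, ← map_pow, ← map_pow, inv_pow,
    Nat.cast_pow]

theorem rho_inv_congr (E : D.ESModule N m) {a b : GQ} (h : E.ρ a = E.ρ b) :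
    E.ρ a⁻¹ = E.ρ b⁻¹ := by
  have h1 : E.ρ a⁻¹ * E.ρ a = 1 := by rw [← map_mul, inv_mul_cancel, map_one]
  have h2 : E.ρ b * E.ρ b⁻¹ = 1 := by rw [← map_mul, mul_inv_cancel, map_one]
  calc E.ρ a⁻¹ = E.ρ a⁻¹ * (E.ρ b * E.ρ b⁻¹) := by rw [h2, mul_one]
    _ = (E.ρ a⁻¹ * E.ρ a) * E.ρ b⁻¹ := by rw [h, mul_assoc]
    _ = E.ρ b⁻¹ := by rw [h1, one_mul]

/-- Lemma A. -/
theorem T_eq_aeval_dickson (E : D.ESModule N m) (hkill : ∀ x : E.V, m • x = 0)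
    (ℓ₀ ℓ : D.GoodPrime N) (hℓ₀m : ¬ ℓ₀.1 ∣ m) (hℓm : ¬ ℓ.1 ∣ m)
    (A₀ : ValuationSubring Qb) (hA₀ : A₀.LiesOverPrime ℓ₀.1) (φ₀ : GQ)
    (hφ₀ : A₀.IsFrobeniusAt φ₀ ℓ₀.1)
    (A : ValuationSubring Qb) (hA : A.LiesOverPrime ℓ.1) (φ : GQ) (hφ : A.IsFrobeniusAt φ ℓ.1)
    (j : ℕ) (hρ : E.ρ φ₀ = E.ρ (φ ^ j)) (hmod : ℓ₀.1 ≡ ℓ.1 ^ j [MOD m]) :
    E.T ℓ₀ = aeval (E.T ℓ) (dickson 1 ((ℓ.1 : ℕ) : ℤ) j) := by
  have h1 := aeval_T_dickson E ℓ₀ hℓ₀m A₀ hA₀ φ₀ hφ₀ 1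
  rw [dickson_one, aeval_X, pow_one, pow_one] at h1
  rw [h1, aeval_T_dickson E ℓ hℓm A hA φ hφ j, hρ, rho_inv_congr E hρ,
    natCast_modEnd_eq_of_modEq hkill hmod]

/-- Lemma B. -/
theorem exists_integral_of_T_eq (E : D.ESModule N m) (hm : 0 < m)
    {g : CuspForm (CongruenceSubgroup.Gamma0 N) 2} (hg : g.IsNormalizedEigenform)
    (ℓ₀ ℓ : D.GoodPrime N) (f : ℤ[X]) (hT : E.T ℓ₀ = aeval (E.T ℓ) f) :
    ∃ z : ℂ, IsIntegral ℤ z ∧ qCoeff g ℓ₀.1 - aeval (qCoeff g ℓ.1) f = (m : ℂ) * z := by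
  set P : FreeAlgebra ℤ (D.GoodPrime N) :=
    FreeAlgebra.ι ℤ ℓ₀ - aeval (FreeAlgebra.ι ℤ ℓ) f with hP
  have hlift : ∀ {B : Type} [Ring B] [Algebra ℤ B] (b : D.GoodPrime N → B),
      FreeAlgebra.lift ℤ b P = b ℓ₀ - aeval (b ℓ) f := by
    intro B _ _ b
    rw [hP, map_sub, ← aeval_algHom_apply, FreeAlgebra.lift_ι_apply, FreeAlgebra.lift_ι_apply]
  have h0 : FreeAlgebra.lift ℤ E.T P = 0 := by rw [hlift, hT, sub_self]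
  obtain ⟨Q, hQ, hPQ⟩ := E.supp P h0
  have hm0 : (m : ℂ) ≠ 0 := Nat.cast_ne_zero.mpr hm.ne'
  set e : integralClosure ℤ ℂ := FreeAlgebra.lift ℤ (D.eigenvalue hg) P with he
  have hev : (e : ℂ) = qCoeff g ℓ₀.1 - aeval (qCoeff g ℓ.1) f := by
    rw [he, hlift, AddSubgroupClass.coe_sub]
    have := aeval_algHom_apply (integralClosure ℤ ℂ).val (D.eigenvalue hg ℓ) f
    rw [show ((aeval (D.eigenvalue hg ℓ) f : integralClosure ℤ ℂ) : ℂ)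
      = (integralClosure ℤ ℂ).val (aeval (D.eigenvalue hg ℓ) f) from rfl, ← this]
    rfl
  have h1 : Q g = ((e : ℂ) / m) • g := by
    have h2 := D.lift_heckeS2_apply hg P
    rw [hPQ, ← he] at h2
    have h3 : ((m : ℤ) • Q) g = (m : ℂ) • Q g := by
      rw [LinearMap.smul_apply]
      simp [← Nat.cast_smul_eq_nsmul ℂ]
    rw [h3] at h2
    rw [div_eq_inv_mul, mul_smul, ← h2, smul_smul, inv_mul_cancel₀ hm0, one_smul]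
  have hc : IsIntegral ℤ ((e : ℂ) / m) :=
    D.isIntegral_of_eigen Q hQ (D.ne_zero_of_normalized hg) h1
  refine ⟨(e : ℂ) / m, hc, ?_⟩
  rw [← hev]
  field_simp

/-- Lemma C: an `ESModule` has finite level. -/
theorem exists_level (E : D.ESModule N m) :
    ∃ L : IntermediateField ℚ Qb, FiniteDimensional ℚ L ∧
      ∀ σ : GQ, (∀ y ∈ L, σ y = y) → E.ρ σ = 1 := by
  choose L hL hfix using E.smooth
  refine ⟨⨆ x, L x, inferInstance, fun σ hσ => ?_⟩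
  ext x
  exact hfix x σ fun y hy => hσ y (le_iSup L x hy)

theorem rho_eq_of_agree (E : D.ESModule N m) (L : IntermediateField ℚ Qb)
    (hL : ∀ σ : GQ, (∀ y ∈ L, σ y = y) → E.ρ σ = 1) {a b : GQ} (h : ∀ y ∈ L, a y = b y) :
    E.ρ a = E.ρ b := by
  have h1 : E.ρ (a⁻¹ * b) = 1 := by
    apply hL
    intro y hy
    rw [AlgEquiv.mul_apply, ← h y hy]
    exact AlgEquiv.symm_apply_apply a y
  have h2 : b = a * (a⁻¹ * b) := by group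
  rw [h2, map_mul, h1, mul_one]

end SMO

theorem qCoeff_eq_of_forall_notMem
    (hcrux : ∀ (N ℓ m : ℕ) [NeZero N], ℓ.Prime → ¬ ℓ ∣ N → ¬ ℓ ∣ m → Crux N ℓ m)
    {N N' : ℕ} [NeZero N] [NeZero N']
    {g : CuspForm (CongruenceSubgroup.Gamma0 N) 2} {g' : CuspForm (CongruenceSubgroup.Gamma0 N') 2}
    (hg : g.IsNormalizedEigenform) (hg' : g'.IsNormalizedEigenform) (S : Finset ℕ)
    (h : ∀ ℓ : ℕ, ℓ.Prime → ℓ ∉ S → qCoeff g ℓ = qCoeff g' ℓ)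
    (ℓ₀ : ℕ) (hℓ₀ : ℓ₀.Prime) (h1 : ¬ ℓ₀ ∣ N) (h2 : ¬ ℓ₀ ∣ N') :
    qCoeff g ℓ₀ = qCoeff g' ℓ₀ := by
  obtain ⟨p, hp, hpℓ₀⟩ : ∃ p : ℕ, p.Prime ∧ p ≠ ℓ₀ := by
    by_cases h2 : ℓ₀ = 2
    · exact ⟨3, Nat.prime_three, by omega⟩
    · exact ⟨2, Nat.prime_two, fun h => h2 h.symm⟩
  rw [← sub_eq_zero]
  apply eq_zero_of_forall_pow_dvd hp
  intro n
  have hm : 0 < p ^ n := pow_pos hp.pos n
  have hndvd : ∀ ℓ : ℕ, ℓ.Prime → ℓ ≠ p → ¬ ℓ ∣ p ^ n := fun ℓ hℓ hℓp hd =>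
    hℓp ((Nat.prime_dvd_prime_iff_eq hℓ hp).mp (hℓ.dvd_of_dvd_pow hd))
  let E : D.ESModule N (p ^ n) := Glue.esModuleOfCrux hm fun ℓ hℓ hNm =>
    hcrux N ℓ (p ^ n) hℓ (fun hd => hNm (hd.mul_right _)) (fun hd => hNm (hd.mul_left _))
  let E' : D.ESModule N' (p ^ n) := Glue.esModuleOfCrux hm fun ℓ hℓ hNm =>
    hcrux N' ℓ (p ^ n) hℓ (fun hd => hNm (hd.mul_right _)) (fun hd => hNm (hd.mul_left _))
  have hkill : ∀ x : E.V, (p ^ n) • x = 0 := fun x => Kum.nsmul_eq_zero (N := N) (m := p ^ n) x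
  have hkill' : ∀ x : E'.V, (p ^ n) • x = 0 := fun x => Kum.nsmul_eq_zero (N := N') (m := p ^ n) x
  obtain ⟨L₁, hL₁, hfix₁⟩ := SMO.exists_level E
  obtain ⟨L₂, hL₂, hfix₂⟩ := SMO.exists_level E'
  have : NeZero (p ^ n) := ⟨hm.ne'⟩
  obtain ⟨ζ, hζ⟩ : ∃ ζ : Qb, IsPrimitiveRoot ζ (p ^ n) :=
    HasEnoughRootsOfUnity.exists_primitiveRoot Qb (p ^ n)
  have hζ1 := hζ.pow_eq_one
  have hζint : IsIntegral ℚ ζ :=
    ⟨Polynomial.X ^ (p ^ n) - 1, Polynomial.monic_X_pow_sub_C 1 hm.ne', by simp [hζ1]⟩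
  let L₃ : IntermediateField ℚ Qb := IntermediateField.adjoin ℚ {ζ}
  have hL₃ : FiniteDimensional ℚ L₃ := IntermediateField.adjoin.finiteDimensional hζint
  obtain ⟨A₀, hA₀, φ₀, hφ₀⟩ := S54.exists_frob ℓ₀ hℓ₀
  obtain ⟨ℓ, A, φ, j, hℓ, hℓS, hA, hφ, hagree⟩ :=
    FD.frobPowerDensity (L₁ ⊔ L₂ ⊔ L₃) inferInstance φ₀
      (S ∪ {p, ℓ₀} ∪ N.primeFactors ∪ N'.primeFactors)
  simp only [Finset.mem_union, Finset.mem_insert, Finset.mem_singleton, Nat.mem_primeFactors,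
    not_or, not_and] at hℓS
  obtain ⟨⟨⟨hℓS, hℓp, hℓℓ₀⟩, hℓN⟩, hℓN'⟩ := hℓS
  have hℓN : ¬ ℓ ∣ N := fun hd => hℓN hℓ hd (NeZero.ne N)
  have hℓN' : ¬ ℓ ∣ N' := fun hd => hℓN' hℓ hd (NeZero.ne N')
  have hmod : ℓ₀ ≡ ℓ ^ j [MOD p ^ n] := by
    apply S31.modEq_of_pow_eq hm.ne' hζ
    rw [← S31.frob_apply_root A₀ hℓ₀ hA₀ φ₀ hφ₀ (hndvd ℓ₀ hℓ₀ hpℓ₀.symm) hζ1,
      ← S31.frob_pow_apply_root A hℓ hA φ hφ (hndvd ℓ hℓ hℓp) hζ1 j]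
    exact hagree ζ ((le_sup_right : L₃ ≤ L₁ ⊔ L₂ ⊔ L₃)
      (IntermediateField.mem_adjoin_simple_self ℚ ζ))
  have hρ : E.ρ φ₀ = E.ρ (φ ^ j) := SMO.rho_eq_of_agree E L₁ hfix₁ fun y hy =>
    hagree y ((le_sup_left : L₁ ⊔ L₂ ≤ L₁ ⊔ L₂ ⊔ L₃) ((le_sup_left : L₁ ≤ L₁ ⊔ L₂) hy))
  have hρ' : E'.ρ φ₀ = E'.ρ (φ ^ j) := SMO.rho_eq_of_agree E' L₂ hfix₂ fun y hy =>
    hagree y ((le_sup_left : L₁ ⊔ L₂ ≤ L₁ ⊔ L₂ ⊔ L₃) ((le_sup_right : L₂ ≤ L₁ ⊔ L₂) hy))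
  have hT := SMO.T_eq_aeval_dickson E hkill ⟨ℓ₀, hℓ₀, h1⟩ ⟨ℓ, hℓ, hℓN⟩
    (hndvd ℓ₀ hℓ₀ hpℓ₀.symm) (hndvd ℓ hℓ hℓp) A₀ hA₀ φ₀ hφ₀ A hA φ hφ j hρ hmod
  have hT' := SMO.T_eq_aeval_dickson E' hkill' ⟨ℓ₀, hℓ₀, h2⟩ ⟨ℓ, hℓ, hℓN'⟩
    (hndvd ℓ₀ hℓ₀ hpℓ₀.symm) (hndvd ℓ hℓ hℓp) A₀ hA₀ φ₀ hφ₀ A hA φ hφ j hρ' hmod
  obtain ⟨z, hz, hzeq⟩ := SMO.exists_integral_of_T_eq E hm hg _ _ _ hT
  obtain ⟨z', hz', hzeq'⟩ := SMO.exists_integral_of_T_eq E' hm hg' _ _ _ hT'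
  refine ⟨z - z', hz.sub hz', ?_⟩
  simp only at hzeq hzeq'
  rw [h ℓ hℓ hℓS] at hzeq
  push_cast at hzeq hzeq'
  linear_combination hzeq - hzeq'

end Fermat.Agent.SS
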