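import Fermat.Agent.SS.New.Occur
import Fermat.Agent.SS.New.Eigenform
import Fermat.Agent.SS.New.SMO
import Fermat.Agent.SS.New.RingHom

/-!
# SS/New/Main : (NewP) the eigensystem of a newform is separated from the lower levels by a
polynomial in the `T_ℓ`, `ℓ ∉ S`
-/

set_option autoImplicit false

namespace Fermat.Agent.SS

open Fermat.Agent.ES CuspForm ModularFormClass

/-- **NewP.** -/
theorem exists_newP
    (hcrux : ∀ (N ℓ m : ℕ) [NeZero N], ℓ.Prime → ¬ ℓ ∣ N → ¬ ℓ ∣ m → Crux N ℓ m)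
    {N : ℕ} [NeZero N] {g : CuspForm (CongruenceSubgroup.Gamma0 N) 2} (hg : g.IsNewform)
    (S : Finset ℕ) (M : ℕ) [NeZero M] (hMN : M ∣ N) (hne : M ≠ N)
    (hMS : ∀ q : ℕ, q.Prime → q ∣ M → q ∈ S) :
    ∃ P : FreeAlgebra ℤ (GP S),
      FreeAlgebra.lift ℤ (fun ℓ : GP S => D.heckeS2 M (ℓ.good hMS)) P = 0 ∧
      FreeAlgebra.lift ℤ (fun ℓ : GP S => qCoeff g ℓ.1) P ≠ 0 := by
  by_contra hcon
  push Not at hcon
  obtain ⟨χ, hχ⟩ := exists_ringHom_of_relations M S hMS (fun ℓ : GP S => qCoeff g ℓ.1) hcon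
  obtain ⟨χ', hχ'⟩ := exists_ringHom_extend M (↑S : Set ℕ) χ
  obtain ⟨f, hf, hfχ⟩ := exists_eigenvector_of_ringHom M (∅ : Set ℕ) χ'
  obtain ⟨g', hg', hg'χ⟩ := exists_isNormalizedEigenform_of_eigenvector M χ' f hf hfχ
  refine hg.2 M hMN hne ⟨g', hg', fun ℓ hℓ hℓN => ?_⟩
  have hℓM : ¬ ℓ ∣ M := fun h => hℓN (h.trans hMN)
  refine (qCoeff_eq_of_forall_notMem hcrux hg.1 hg' S (fun ℓ' hℓ' hℓ'S => ?_) ℓ hℓ hℓN hℓM).symm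
  have hℓ'M : ¬ ℓ' ∣ M := fun h => hℓ'S (hMS ℓ' hℓ' h)
  rw [hg'χ ℓ' hℓ' hℓ'M]
  have h1 := hχ ⟨ℓ', hℓ', hℓ'S⟩
  rw [← hχ'] at h1
  exact h1.symm

end Fermat.Agent.SS
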