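import Fermat.Agent.ES.D.Defs
import Fermat.Prelude.Def_CuspForm_Newforms

/-!
# SS/New : newforms and polynomials in the Hecke operators `T_ℓ`, `ℓ ∉ S`.  Definitions.
-/

set_option autoImplicit false

namespace Fermat.Agent.SS

open Fermat.Agent.ES

/-- The primes outside `S`. -/
abbrev GP (S : Finset ℕ) : Type := {ℓ : ℕ // ℓ.Prime ∧ ℓ ∉ S}

/-- A prime outside `S` is a good prime for every level all of whose prime divisors are in `S`. -/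
def GP.good {S : Finset ℕ} {N : ℕ} (hNS : ∀ q : ℕ, q.Prime → q ∣ N → q ∈ S) (ℓ : GP S) :
    D.GoodPrime N :=
  ⟨ℓ.1, ℓ.2.1, fun h => ℓ.2.2 (hNS ℓ.1 ℓ.2.1 h)⟩

@[simp]
theorem GP.good_val {S : Finset ℕ} {N : ℕ} (hNS : ∀ q : ℕ, q.Prime → q ∣ N → q ∈ S) (ℓ : GP S) :
    (ℓ.good hNS).1 = ℓ.1 := rfl

theorem GP.notMem_coe {S : Finset ℕ} (ℓ : GP S) : ℓ.1 ∉ (↑S : Set ℕ) := by
  simpa using ℓ.2.2

end Fermat.Agent.SS
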