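import Fermat.Agent.SS.New.Defs
import Fermat.Agent.S22
import Fermat.Agent.S23
import Fermat.Agent.S49.QCoeff
import Fermat.Agent.ES.Coh.LinAlg
import Fermat.Prelude.Def_CuspForm_HeckeLocal

/-!
# SS/New/Occur : every character of the Hecke algebra occurs in `S₂(Γ₀(M))`

(N1) `exists_eigenvector_of_ringHom` : for every ring hom `χ : 𝕋_S → ℂ` there is `f ≠ 0` in
`S₂(Γ₀(M))` with `t f = χ(t) f` for all `t ∈ 𝕋_S`.

PROOF.  `Λ := CuspForm.intLattice M 2` is a free `ℤ`-module of finite rank `d`
(Prelude `intLattice.moduleFree`, `intLattice.moduleFinite`), stable under `𝕋_S`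
(`latticeActionHom M S : 𝕋_S →+* Module.End ℤ Λ`, injective by `latticeActionHom_injective`
and `S23.result M : HasIntegralStructure M 2`); all in `Fermat/Prelude/Def_CuspForm_HeckeLocal.lean`.
Let `b` be a `ℤ`-basis of `Λ`, `t b_i = ∑_j m_ij(t) b_j`.  DETERMINANT TRICK on the `𝕋_S`-module
`Hom_ℤ(Λ, ℤ)` (faithful) with the dual basis `b_i^*`: `t^* b_j^* = ∑_i m_ij(t) b_i^*`, so every
`d × d` matrix with rows `(m_ij(t) - δ_ij t)_i` (`(t, j)` varying) has determinant `0` in `𝕋_S`;
apply `χ`: there is `c ≠ 0` in `ℂ^d` with `∑_i c_i m_ij(t) = χ(t) c_j` for all `t, j`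
(`ES.Coh.exists_common_zero_of_det_eq_zero`, `ES.Coh.det_smul_eq_zero` in `ES/Coh/LinAlg.lean`;
the proof of `ES.Coh.exists_eigen_coords_of_ringHom` in `ES/Coh/RingHom.lean` is a TEMPLATE).
`f := ∑ c_i b_i`; `f ≠ 0` because a `ℤ`-basis of `Λ` is `ℂ`-linearly independent: elements of `Λ`
have integral `q`-coefficients (`span` of such), so a `ℂ`-linear relation between the vectors of
`q`-coefficients `(a_n(b_i))_n ∈ ℤ^ℕ` gives a `ℚ`-linear one (rank of an integer matrix does not
depend on the field; or use `S23.span_rational_eq`-type lemmas / `S16/Duality.lean`, which already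
contains statements of this kind), and `f ↦ (a_n(f))_n` is injective (`S49.eq_zero_of_qCoeff`).

(N2) `exists_ringHom_extend` : `𝕋_∅ ⊇ 𝕋_S` is integral (`S22.result`), `ℂ` is algebraically closed:
`P = ker χ` prime; `Ideal.exists_ideal_over_prime_of_isIntegral` gives `Q` over `P`;
`𝕋_S/P ↪ 𝕋_∅/Q` integral, `𝕋_S/P ↪ ℂ`; pass to fraction fields and use `IsAlgClosed.lift`.
-/

set_option autoImplicit false

namespace Fermat.Agent.SS

open Fermat.Agent.ES CuspForm

/-! ### Linear algebra: `ℤ`-independent integral sequences are `ℂ`-independent -/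

theorem eq_zero_of_int_indep {d : ℕ} (a : Fin d → ℕ → ℤ)
    (h : ∀ z : Fin d → ℤ, (∀ n, ∑ i, z i * a i n = 0) → z = 0) (c : Fin d → ℂ)
    (hc : ∀ n, ∑ i, c i * (a i n : ℂ) = 0) : c = 0 := by
  classical
  by_cases hdet : ∀ j : Fin d → ℕ, (Matrix.of fun r => fun i => (a i (j r) : ℚ)).det = 0
  · exfalso
    obtain ⟨c', hc', h'⟩ := Coh.exists_common_zero_of_det_eq_zero
      (fun n i => (a i n : ℚ)) hdet
    obtain ⟨D, hD⟩ := IsLocalization.exist_integer_multiples_of_finite (nonZeroDivisors ℤ) c'
    choose z hz using hD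
    have hD0 : ((D : ℤ) : ℚ) ≠ 0 := by
      have := nonZeroDivisors.ne_zero D.2
      exact_mod_cast this
    have hz' : ∀ i, (z i : ℚ) = (D : ℤ) * c' i := by
      intro i
      have := hz i
      simpa [Algebra.smul_def] using this
    have hz0 : z = 0 := by
      apply h
      intro n
      have : ((∑ i, z i * a i n : ℤ) : ℚ) = 0 := by
        push_cast
        simp only [hz']
        have h1 := h' n
        calc ∑ i, ((D : ℤ) : ℚ) * c' i * (a i n : ℚ)
            = ((D : ℤ) : ℚ) * ∑ i, (a i n : ℚ) * c' i := by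
              rw [Finset.mul_sum]
              exact Finset.sum_congr rfl fun i _ => by ring
          _ = 0 := by rw [h1, mul_zero]
      exact_mod_cast this
    apply hc'
    funext i
    have := hz' i
    rw [hz0] at this
    simp only [Pi.zero_apply, Int.cast_zero] at this
    exact (mul_eq_zero.1 this.symm).resolve_left hD0
  · push Not at hdet
    obtain ⟨j, hj⟩ := hdet
    set B : Matrix (Fin d) (Fin d) ℚ := Matrix.of fun r => fun i => (a i (j r) : ℚ) with hB
    have hdetC : ((algebraMap ℚ ℂ).mapMatrix B).det ≠ 0 := by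
      rw [← RingHom.map_det]
      exact (map_ne_zero _).2 hj
    apply Matrix.eq_zero_of_mulVec_eq_zero hdetC
    funext r
    have := hc (j r)
    simp only [Matrix.mulVec, dotProduct, RingHom.mapMatrix_apply, Matrix.map_apply, hB,
      Matrix.of_apply, Pi.zero_apply]
    rw [← this]
    exact Finset.sum_congr rfl fun i _ => by simp [mul_comm]

/-! ### The action of the Hecke algebra on the dual of the integral lattice -/

/-- the action of the (commutative) Hecke algebra on the `ℤ`-dual of the integral lattice. -/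
noncomputable def latDualAct (M : ℕ) [NeZero M] (S : Set ℕ) :
    heckeAlgebra M 2 S →+* Module.End ℤ (↥(intLattice M 2) →ₗ[ℤ] ℤ) where
  toFun t :=
    { toFun := fun e => e ∘ₗ latticeActionHom M S t
      map_add' := fun e e' => LinearMap.add_comp _ _ _
      map_smul' := fun n e => LinearMap.smul_comp _ _ _ }
  map_one' := by ext e f; rfl
  map_mul' t t' := by
    ext e f
    have : t * t' = t' * t := mul_comm _ _
    rw [this]
    rfl
  map_zero' := by
    ext e f
    simp
  map_add' t t' := by
    ext e f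
    simp

/-- **Every character of the Hecke algebra occurs** (coordinates with respect to a `ℤ`-basis of the
integral lattice). -/
theorem exists_eigen_coords_lattice (M : ℕ) [NeZero M] (S : Set ℕ)
    (χ : heckeAlgebra M 2 S →+* ℂ) {d : ℕ} (b : Module.Basis (Fin d) ℤ ↥(intLattice M 2)) :
    ∃ c : Fin d → ℂ, c ≠ 0 ∧ ∀ (t : heckeAlgebra M 2 S) (j : Fin d),
      ∑ i, c i * ((b.repr (latticeActionHom M S t (b i)) j : ℤ) : ℂ) = χ t * c j := by
  classical
  set J := heckeAlgebra M 2 S × Fin d
  set m : heckeAlgebra M 2 S → Fin d → Fin d → ℤ :=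
    fun t i j => b.repr (latticeActionHom M S t (b i)) j with hm
  set ρ : J → Fin d → heckeAlgebra M 2 S := fun x i =>
    ((m x.1 i x.2 : ℤ) : heckeAlgebra M 2 S) - if i = x.2 then x.1 else 0 with hρ
  have hdet : ∀ j : Fin d → J, (Matrix.of fun i => ρ (j i)).det = 0 := by
    intro j
    let _ : Module (heckeAlgebra M 2 S) (↥(intLattice M 2) →ₗ[ℤ] ℤ) :=
      Module.compHom _ (latDualAct M S)
    have hsm : ∀ (t : heckeAlgebra M 2 S) (e : ↥(intLattice M 2) →ₗ[ℤ] ℤ),
        t • e = e ∘ₗ latticeActionHom M S t := fun _ _ => rfl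
    have h0 := Coh.det_smul_eq_zero (Matrix.of fun i => ρ (j i)) (fun i => b.coord i) (by
      intro i
      simp only [Matrix.of_apply]
      generalize j i = x
      obtain ⟨t, j'⟩ := x
      apply b.ext
      intro i'
      have h3 : ∀ s, (ρ (t, j') s • b.coord s) (b i')
          = m t s j' * b.coord s (b i')
            - if s = j' then b.coord s (latticeActionHom M S t (b i')) else 0 := by
        intro s
        rw [hsm, LinearMap.comp_apply]
        simp only [hρ]
        split_ifs with hs
        · rw [map_sub, map_intCast, LinearMap.sub_apply, map_sub]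
          simp
        · rw [sub_zero, sub_zero, map_intCast]
          simp
      rw [LinearMap.sum_apply]
      simp only [h3, Finset.sum_sub_distrib, Finset.sum_ite_eq', Finset.mem_univ, if_true,
        LinearMap.zero_apply]
      rw [sub_eq_zero]
      simp [hm, Module.Basis.coord_apply, Finsupp.single_apply])
    apply latticeActionHom_injective M S (S23.result M)
    rw [map_zero]
    refine LinearMap.ext fun f => ?_
    apply b.repr.injective
    ext s
    have h4 := LinearMap.congr_fun (h0 s) f
    rw [hsm] at h4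
    simpa using h4
  obtain ⟨c', hc', h⟩ := Coh.exists_common_zero_of_det_eq_zero (fun x i => χ (ρ x i)) (by
    intro j
    have : (Matrix.of fun i => fun s => χ (ρ (j i) s))
        = χ.mapMatrix (Matrix.of fun i => ρ (j i)) := by
      ext i s
      simp
    rw [this, ← RingHom.map_det, hdet, map_zero])
  refine ⟨c', hc', fun t j => ?_⟩
  have h1 := h (t, j)
  have h2 : ∀ s, χ (ρ (t, j) s) * c' s
      = c' s * ((m t s j : ℤ) : ℂ) - if s = j then χ t * c' s else 0 := by
    intro s
    simp only [hρ]
    split_ifs with hs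
    · rw [map_sub, map_intCast]; ring
    · rw [sub_zero, sub_zero, map_intCast]; ring
  simp only [h2, Finset.sum_sub_distrib, Finset.sum_ite_eq', Finset.mem_univ, if_true] at h1
  exact sub_eq_zero.1 h1

theorem exists_eigenvector_of_ringHom (M : ℕ) [NeZero M] (S : Set ℕ)
    (χ : heckeAlgebra M 2 S →+* ℂ) :
    ∃ f : CuspForm (CongruenceSubgroup.Gamma0 M) 2, f ≠ 0 ∧
      ∀ t : heckeAlgebra M 2 S,
        (t : Module.End ℂ (CuspForm (CongruenceSubgroup.Gamma0 M) 2)) f = χ t • f := by
  classical
  have := intLattice.moduleFinite M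
  have := intLattice.moduleFree M
  set b := Module.finBasis ℤ ↥(intLattice M 2) with hb
  obtain ⟨c, hc, h⟩ := exists_eigen_coords_lattice M S χ b
  refine ⟨∑ i, c i • (b i : CuspForm (CongruenceSubgroup.Gamma0 M) 2), ?_, fun t => ?_⟩
  · intro h0
    apply hc
    choose a ha using fun (i : Fin _) (n : ℕ) =>
      S49.qCoeff_int_of_mem_intLattice (b i).2 n
    refine eq_zero_of_int_indep a ?_ c ?_
    · intro z hz
      have h1 : ∑ i, z i • b i = 0 := by
        apply Subtype.ext
        apply S49.eq_zero_of_qCoeff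
        intro n
        have h2 : ((∑ i, z i • b i : ↥(intLattice M 2)) :
            CuspForm (CongruenceSubgroup.Gamma0 M) 2)
            = ∑ i, (z i : ℂ) • (b i : CuspForm (CongruenceSubgroup.Gamma0 M) 2) := by
          rw [Submodule.coe_sum]
          exact Finset.sum_congr rfl fun i _ => by
            rw [Submodule.coe_smul, Int.cast_smul_eq_zsmul]
        rw [h2, ← S49.qCoeffLin_apply, map_sum]
        simp only [map_smul, S49.qCoeffLin_apply, ha, smul_eq_mul]
        exact_mod_cast hz n
      funext i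
      exact Fintype.linearIndependent_iff.1 b.linearIndependent z h1 i
    · intro n
      have h1 := congrArg (S49.qCoeffLin M 2 n) h0
      rw [map_sum, map_zero] at h1
      simpa only [map_smul, S49.qCoeffLin_apply, ha, smul_eq_mul] using h1
  · have h1 : ∀ i, (t : Module.End ℂ (CuspForm (CongruenceSubgroup.Gamma0 M) 2))
        (b i : CuspForm (CongruenceSubgroup.Gamma0 M) 2)
        = ∑ j, ((b.repr (latticeActionHom M S t (b i)) j : ℤ) : ℂ) •
            (b j : CuspForm (CongruenceSubgroup.Gamma0 M) 2) := by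
      intro i
      have h2 := b.sum_repr (latticeActionHom M S t (b i))
      have h3 := congrArg (Subtype.val) h2
      rw [Submodule.coe_sum] at h3
      have h4 : ((latticeActionHom M S t (b i) : ↥(intLattice M 2)) :
          CuspForm (CongruenceSubgroup.Gamma0 M) 2)
          = (t : Module.End ℂ (CuspForm (CongruenceSubgroup.Gamma0 M) 2)) (b i) := rfl
      rw [← h4, ← h3]
      exact Finset.sum_congr rfl fun j _ => by
        rw [Submodule.coe_smul, Int.cast_smul_eq_zsmul]
    rw [map_sum]
    simp only [map_smul, h1, Finset.smul_sum, smul_smul]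
    rw [Finset.sum_comm]
    refine Finset.sum_congr rfl fun j _ => ?_
    rw [← Finset.sum_smul, h t j]

/-! ### Extension of characters along integral extensions -/

theorem exists_ringHom_extend_of_isIntegral {A B K : Type*} [CommRing A] [CommRing B] [Field K]
    [IsAlgClosed K] [Algebra A B] [Algebra.IsIntegral A B]
    (hinj : Function.Injective (algebraMap A B)) (χ : A →+* K) :
    ∃ χ' : B →+* K, ∀ a, χ' (algebraMap A B a) = χ a := by
  have hP : (RingHom.ker χ).IsPrime := RingHom.ker_isPrime χ
  obtain ⟨Q, -, hQ, hQP⟩ := Ideal.exists_ideal_over_prime_of_isIntegral (RingHom.ker χ)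
    (⊥ : Ideal B) (by
      rw [← RingHom.ker_eq_comap_bot, (RingHom.injective_iff_ker_eq_bot _).1 hinj]
      exact bot_le)
  have hlo : Q.LiesOver (RingHom.ker χ) := (Ideal.liesOver_iff _ _).mpr hQP.symm
  let _ : Algebra (A ⧸ RingHom.ker χ) K := (RingHom.kerLift χ).toAlgebra
  have h1 : Function.Injective (algebraMap (A ⧸ RingHom.ker χ) K) := RingHom.kerLift_injective χ
  have : Module.IsTorsionFree (A ⧸ RingHom.ker χ) K :=
    Module.isTorsionFree_iff_algebraMap_injective.2 h1
  have : Module.IsTorsionFree (A ⧸ RingHom.ker χ) (B ⧸ Q) :=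
    Module.isTorsionFree_iff_faithfulSMul.2 (Ideal.Quotient.instFaithfulSMul _ _)
  have : Algebra.IsIntegral (A ⧸ RingHom.ker χ) (B ⧸ Q) := inferInstance
  let L : (B ⧸ Q) →ₐ[A ⧸ RingHom.ker χ] K := IsAlgClosed.lift
  refine ⟨(L : (B ⧸ Q) →+* K).comp (Ideal.Quotient.mk Q), fun a => ?_⟩
  have : (Ideal.Quotient.mk Q) (algebraMap A B a)
      = algebraMap (A ⧸ RingHom.ker χ) (B ⧸ Q) (Ideal.Quotient.mk _ a) := rfl
  simp only [RingHom.comp_apply, this]
  have h3 := L.commutes (Ideal.Quotient.mk _ a)
  exact h3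

theorem exists_ringHom_extend_of_int {A B K : Type*} [CommRing A] [CommRing B] [Field K]
    [IsAlgClosed K] (f : A →+* B) (hinj : Function.Injective f)
    (hint : ∀ b : B, ∃ p : Polynomial ℤ, p.Monic ∧ p.eval₂ (Int.castRingHom B) b = 0)
    (χ : A →+* K) :
    ∃ χ' : B →+* K, ∀ a, χ' (f a) = χ a := by
  let _ : Algebra A B := f.toAlgebra
  have : Algebra.IsIntegral A B := ⟨fun x => by
    have h1 : IsIntegral ℤ x := hint x
    exact h1.tower_top⟩
  exact exists_ringHom_extend_of_isIntegral hinj χ

theorem exists_ringHom_extend (M : ℕ) [NeZero M] (S : Set ℕ) (χ : heckeAlgebra M 2 S →+* ℂ) :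
    ∃ χ' : heckeAlgebra M 2 (∅ : Set ℕ) →+* ℂ, ∀ t : heckeAlgebra M 2 S,
      χ' (Subalgebra.inclusion (heckeAlgebra_mono (Set.empty_subset S)) t) = χ t := by
  have hfin : Module.Finite ℤ (heckeAlgebra M 2 (∅ : Set ℕ)) := S22.result M 2 ∅
  have hintZ : Algebra.IsIntegral ℤ (heckeAlgebra M 2 (∅ : Set ℕ)) := inferInstance
  refine exists_ringHom_extend_of_int
    (Subalgebra.inclusion (heckeAlgebra_mono (Set.empty_subset S))).toRingHom
    (Subalgebra.inclusion_injective (heckeAlgebra_mono (Set.empty_subset S))) ?_ χ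
  intro x
  obtain ⟨p, hp, h⟩ := hintZ.isIntegral x
  exact ⟨p, hp, by rwa [Subsingleton.elim (Int.castRingHom _) (algebraMap ℤ _)]⟩

end Fermat.Agent.SS
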